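/-
Abstract two-chart Čech torsion core for S18 (helper86).

`O` is a commutative ring (in the application: the Gauss valuation ring of the function field over a
discrete valuation ring `R = A₀` with uniformiser `π`), `C₁, C₂ ≤ C₁₂` are the rings of the two
affine charts and of their intersection, `M₁, M₂ ≤ M₁₂` the modules of sections of the divisorial
ideal "`f^(-1/m)`".  If `f ≡ 1 (mod π)`, `m` is a unit of `R`, both `M₁` and `M₂` contain an element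
`≡ 1 (mod π)`, the reductions of `C₁` and `C₂` (and of `M₁`, `M₂`) only meet in the constants, and the
`π`-power torsion of `M₁₂ / (M₁ + M₂)` is bounded, then `M₁ ∩ M₂ ≠ 0`.

No Kummer extension, no idempotents, `m` is not assumed to be prime.
-/
import Mathlib

set_option autoImplicit false

namespace Fermat.Agent.S18.H86

open Finset

section Aux

variable {O : Type*} [CommRing O]

theorem dvd_mul_sub_one_of_dvd {p x y : O} (hx : p ∣ x - 1) (hy : p ∣ y - 1) :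
    p ∣ x * y - 1 := by
  have h : x * y - 1 = (x - 1) * y + (y - 1) := by ring
  rw [h]
  exact dvd_add (Dvd.dvd.mul_right hx y) hy

theorem dvd_pow_sub_one_of_dvd {p x : O} (hx : p ∣ x - 1) (n : ℕ) : p ∣ x ^ n - 1 := by
  induction n with
  | zero => simp
  | succ n ih =>
    rw [pow_succ]
    exact dvd_mul_sub_one_of_dvd ih hx

theorem dvd_geom_sum₂_sub_of_dvd {p u v : O} (hu : p ∣ u - 1) (hv : p ∣ v - 1) (m : ℕ) :
    p ∣ (∑ i ∈ range m, u ^ i * v ^ (m - 1 - i)) - (m : O) := by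
  have h : (∑ i ∈ range m, u ^ i * v ^ (m - 1 - i)) - (m : O)
      = ∑ i ∈ range m, (u ^ i * v ^ (m - 1 - i) - 1) := by
    rw [Finset.sum_sub_distrib, Finset.sum_const, Finset.card_range, nsmul_eq_mul, mul_one]
  rw [h]
  exact Finset.dvd_sum fun i _ =>
    dvd_mul_sub_one_of_dvd (dvd_pow_sub_one_of_dvd hu i) (dvd_pow_sub_one_of_dvd hv _)

end Aux

section Core

variable {R O : Type*} [CommRing R] [CommRing O] [Algebra R O]

/-- No `π`-torsion in `C₁₂ / (C₁ + C₂)`. -/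
theorem cech_torsionFree_step (π : R)
    (C₁ C₂ : Subalgebra R O)
    (satC₁ : ∀ x : O, algebraMap R O π * x ∈ C₁ → x ∈ C₁)
    (satC₂ : ∀ x : O, algebraMap R O π * x ∈ C₂ → x ∈ C₂)
    (constC : ∀ c₁ ∈ C₁, ∀ c₂ ∈ C₂, algebraMap R O π ∣ c₁ - c₂ →
      ∃ a : R, algebraMap R O π ∣ c₁ - algebraMap R O a)
    (x : O) (c₁ : O) (hc₁ : c₁ ∈ C₁) (c₂ : O) (hc₂ : c₂ ∈ C₂)
    (h : algebraMap R O π * x = c₁ - c₂) :
    ∃ d₁ ∈ C₁, ∃ d₂ ∈ C₂, x = d₁ - d₂ := by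
  obtain ⟨a, d₁, hd₁⟩ := constC c₁ hc₁ c₂ hc₂ ⟨x, h.symm⟩
  have hd₁C : d₁ ∈ C₁ := satC₁ d₁ (by rw [← hd₁]; exact C₁.sub_mem hc₁ (C₁.algebraMap_mem a))
  have hd₂ : algebraMap R O π * (d₁ - x) = c₂ - algebraMap R O a := by
    rw [mul_sub, ← hd₁, h]; ring
  have hd₂C : d₁ - x ∈ C₂ := satC₂ _ (by rw [hd₂]; exact C₂.sub_mem hc₂ (C₂.algebraMap_mem a))
  exact ⟨d₁, hd₁C, d₁ - x, hd₂C, by ring⟩

/-- No `π`-power torsion in `C₁₂ / (C₁ + C₂)`. -/
theorem cech_torsionFree (π : R)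
    (C₁ C₂ : Subalgebra R O)
    (satC₁ : ∀ x : O, algebraMap R O π * x ∈ C₁ → x ∈ C₁)
    (satC₂ : ∀ x : O, algebraMap R O π * x ∈ C₂ → x ∈ C₂)
    (constC : ∀ c₁ ∈ C₁, ∀ c₂ ∈ C₂, algebraMap R O π ∣ c₁ - c₂ →
      ∃ a : R, algebraMap R O π ∣ c₁ - algebraMap R O a)
    (a : ℕ) (x : O) (c₁ : O) (hc₁ : c₁ ∈ C₁) (c₂ : O) (hc₂ : c₂ ∈ C₂)
    (h : algebraMap R O π ^ a * x = c₁ - c₂) :
    ∃ d₁ ∈ C₁, ∃ d₂ ∈ C₂, x = d₁ - d₂ := by
  induction a generalizing c₁ c₂ with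
  | zero => exact ⟨c₁, hc₁, c₂, hc₂, by simpa using h⟩
  | succ a ih =>
    have h' : algebraMap R O π * (algebraMap R O π ^ a * x) = c₁ - c₂ := by
      rw [← h, pow_succ]; ring
    obtain ⟨d₁, hd₁, d₂, hd₂, hd⟩ :=
      cech_torsionFree_step π C₁ C₂ satC₁ satC₂ constC _ c₁ hc₁ c₂ hc₂ h'
    exact ih d₁ hd₁ d₂ hd₂ hd

/-- **Abstract two-chart Čech torsion core.** -/
theorem exists_ne_zero_mem_inf_of_cech
    (π : R) (hnu : ¬ IsUnit (algebraMap R O π))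
    (hloc : ∀ a : R, IsUnit a ∨ π ∣ a)
    (m : ℕ) (hm : IsUnit (m : R))
    (C₁ C₂ C₁₂ : Subalgebra R O)
    (M₁ M₂ M₁₂ : Submodule R O) (hM₁ : M₁ ≤ M₁₂) (hM₂ : M₂ ≤ M₁₂)
    (hCM₁ : ∀ c ∈ C₁, ∀ x ∈ M₁, c * x ∈ M₁) (hCM₂ : ∀ c ∈ C₂, ∀ x ∈ M₂, c * x ∈ M₂)
    (satC₁ : ∀ x : O, algebraMap R O π * x ∈ C₁ → x ∈ C₁)
    (satC₂ : ∀ x : O, algebraMap R O π * x ∈ C₂ → x ∈ C₂)
    (satM₁ : ∀ x : O, algebraMap R O π * x ∈ M₁ → x ∈ M₁)
    (satM₂ : ∀ x : O, algebraMap R O π * x ∈ M₂ → x ∈ M₂)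
    (satM₁₂ : ∀ x : O, algebraMap R O π * x ∈ M₁₂ → x ∈ M₁₂)
    (constC : ∀ c₁ ∈ C₁, ∀ c₂ ∈ C₂, algebraMap R O π ∣ c₁ - c₂ →
      ∃ a : R, algebraMap R O π ∣ c₁ - algebraMap R O a)
    (constM : ∀ b₁ ∈ M₁, ∀ b₂ ∈ M₂, algebraMap R O π ∣ b₁ - b₂ →
      ∃ a : R, algebraMap R O π ∣ b₁ - algebraMap R O a)
    (f : O) (hf : algebraMap R O π ∣ f - 1)
    (hpow₁ : ∀ x ∈ M₁, f * x ^ m ∈ C₁) (hpow₂ : ∀ x ∈ M₂, f * x ^ m ∈ C₂)
    (hpow₁₂ : ∀ y ∈ M₁₂, ∀ x₁ ∈ M₁, ∀ x₂ ∈ M₂, ∀ i j : ℕ, i + j + 1 = m →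
      f * y * (x₁ ^ i * x₂ ^ j) ∈ C₁₂)
    (b₁ b₂ : O) (hb₁ : b₁ ∈ M₁) (hb₂ : b₂ ∈ M₂)
    (hb₁1 : algebraMap R O π ∣ b₁ - 1) (hb₂1 : algebraMap R O π ∣ b₂ - 1)
    (hbdd : ∃ c : ℕ, ∀ y ∈ M₁₂, ∀ a : ℕ,
      (∃ u ∈ M₁, ∃ v ∈ M₂, algebraMap R O π ^ a * y = u - v) →
        ∃ u ∈ M₁, ∃ v ∈ M₂, algebraMap R O π ^ c * y = u - v) :
    ∃ h : O, h ≠ 0 ∧ h ∈ M₁ ∧ h ∈ M₂ := by
  classical
  by_contra hcon
  have hzero : ∀ h : O, h ∈ M₁ → h ∈ M₂ → h = 0 := by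
    intro h h1 h2
    by_contra hne
    exact hcon ⟨h, hne, h1, h2⟩
  set p : O := algebraMap R O π with hp
  -- `p • x = p * x`
  have hsmul : ∀ (r : R) (x : O), r • x = algebraMap R O r * x := fun r x => Algebra.smul_def r x
  have hpM₁ : ∀ (r : R) (x : O), x ∈ M₁ → algebraMap R O r * x ∈ M₁ := fun r x hx => by
    rw [← hsmul]; exact M₁.smul_mem r hx
  have hpM₂ : ∀ (r : R) (x : O), x ∈ M₂ → algebraMap R O r * x ∈ M₂ := fun r x hx => by
    rw [← hsmul]; exact M₂.smul_mem r hx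
  have hpM₁₂ : ∀ (r : R) (x : O), x ∈ M₁₂ → algebraMap R O r * x ∈ M₁₂ := fun r x hx => by
    rw [← hsmul]; exact M₁₂.smul_mem r hx
  -- the inverse of `m`
  obtain ⟨μ, hμ⟩ : ∃ μ : R, μ * (m : R) = 1 := ⟨↑hm.unit⁻¹, by simp⟩
  have hμO : algebraMap R O μ * (m : O) = 1 := by
    have := congrArg (algebraMap R O) hμ
    simpa using this
  -- exact order predicate
  have key : ∀ a : ℕ, ∃ y ∈ M₁₂, (∃ u ∈ M₁, ∃ v ∈ M₂, p ^ (a + 1) * y = u - v) ∧
      ¬ ∃ u ∈ M₁, ∃ v ∈ M₂, p ^ a * y = u - v := by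
    intro a
    induction a with
    | zero =>
      obtain ⟨x₁, hx₁⟩ := hb₁1
      obtain ⟨x₂, hx₂⟩ := hb₂1
      have hy : p * (x₁ - x₂) = b₁ - b₂ := by rw [mul_sub, ← hx₁, ← hx₂]; ring
      have hyM : x₁ - x₂ ∈ M₁₂ := satM₁₂ _ (by rw [hy]; exact M₁₂.sub_mem (hM₁ hb₁) (hM₂ hb₂))
      refine ⟨x₁ - x₂, hyM, ⟨b₁, hb₁, b₂, hb₂, by rw [zero_add, pow_one, hy]⟩, ?_⟩
      rintro ⟨u, hu, v, hv, huv⟩
      rw [pow_zero, one_mul] at huv
      have e : b₁ - p * u = b₂ - p * v := by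
        have : b₁ - b₂ = p * u - p * v := by rw [← hy, huv]; ring
        linear_combination this
      have h0 : b₁ - p * u = 0 :=
        hzero _ (M₁.sub_mem hb₁ (hpM₁ π u hu)) (by rw [e]; exact M₂.sub_mem hb₂ (hpM₂ π v hv))
      apply hnu
      refine isUnit_iff_exists_inv.mpr ⟨u - x₁, ?_⟩
      have : b₁ - 1 = p * x₁ := hx₁
      linear_combination this - h0
    | succ a ih =>
      obtain ⟨y, hy, ⟨u, hu, v, hv, huv⟩, hno⟩ := ih
      -- `u ≡ v ≡ constant`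
      have hdiv : p ∣ u - v := ⟨p ^ a * y, by rw [← huv, pow_succ]; ring⟩
      obtain ⟨c, t, ht⟩ := constM u hu v hv hdiv
      -- the constant is a unit
      have hcu : IsUnit c := by
        rcases hloc c with hc | ⟨c', hc'⟩
        · exact hc
        · exfalso
          apply hno
          have hu0 : p * (t + algebraMap R O c') = u := by
            have : algebraMap R O c = p * algebraMap R O c' := by rw [hc', map_mul]
            linear_combination -ht - this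
          have hu0M : t + algebraMap R O c' ∈ M₁ := satM₁ _ (by rw [hu0]; exact hu)
          have hv0 : p * (t + algebraMap R O c' - p ^ a * y) = v := by
            have : p ^ (a + 1) * y = p * (p ^ a * y) := by rw [pow_succ]; ring
            linear_combination hu0 - huv + this
          have hv0M : t + algebraMap R O c' - p ^ a * y ∈ M₂ := satM₂ _ (by rw [hv0]; exact hv)
          exact ⟨_, hu0M, _, hv0M, by ring⟩
      -- normalise: `u ≡ v ≡ 1`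
      obtain ⟨γ, hγ⟩ : ∃ γ : R, γ * c = 1 := ⟨↑hcu.unit⁻¹, by simp⟩
      have hγO : algebraMap R O γ * algebraMap R O c = 1 := by
        rw [← map_mul, hγ, map_one]
      set g : O := algebraMap R O γ with hg
      have hy' : g * y ∈ M₁₂ := hpM₁₂ γ y hy
      have hu' : g * u ∈ M₁ := hpM₁ γ u hu
      have hv' : g * v ∈ M₂ := hpM₂ γ v hv
      have huv' : p ^ (a + 1) * (g * y) = g * u - g * v := by
        linear_combination g * huv
      have hno' : ¬ ∃ u' ∈ M₁, ∃ v' ∈ M₂, p ^ a * (g * y) = u' - v' := by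
        rintro ⟨u', hu'', v', hv'', h⟩
        apply hno
        refine ⟨algebraMap R O c * u', hpM₁ c u' hu'', algebraMap R O c * v', hpM₂ c v' hv'', ?_⟩
        linear_combination algebraMap R O c * h - p ^ a * y * hγO
      have hu1 : p ∣ g * u - 1 := ⟨g * t, by linear_combination g * ht + hγO⟩
      have hv1 : p ∣ g * v - 1 := by
        obtain ⟨s, hs⟩ := hu1
        refine ⟨s - p ^ a * (g * y), ?_⟩
        have : p ^ (a + 1) * (g * y) = p * (p ^ a * (g * y)) := by rw [pow_succ]; ring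
        linear_combination hs + huv' - this
      clear_value g
      -- rename
      generalize g * y = y₀ at hy' huv' hno'
      generalize g * u = u₀ at hu' huv' hu1
      generalize g * v = v₀ at hv' huv' hv1
      -- `ε`
      set S : O := ∑ i ∈ range m, u₀ ^ i * v₀ ^ (m - 1 - i) with hS
      have hgeom : S * (u₀ - v₀) = u₀ ^ m - v₀ ^ m := by
        rw [hS]; exact (Commute.all u₀ v₀).geom_sum₂_mul m
      have hεC : f * y₀ * S ∈ C₁₂ := by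
        rw [hS, Finset.mul_sum]
        refine Subalgebra.sum_mem _ fun i hi => ?_
        have hi' : i < m := Finset.mem_range.mp hi
        exact hpow₁₂ y₀ hy' u₀ hu' v₀ hv' i (m - 1 - i) (by omega)
      have hε : p ^ (a + 1) * (f * y₀ * S) = f * u₀ ^ m - f * v₀ ^ m := by
        linear_combination f * S * huv' + f * hgeom
      obtain ⟨e₁, he₁, e₂, he₂, he⟩ :=
        cech_torsionFree π C₁ C₂ satC₁ satC₂ constC (a + 1) (f * y₀ * S)
          (f * u₀ ^ m) (hpow₁ u₀ hu') (f * v₀ ^ m) (hpow₂ v₀ hv') hε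
      -- `ε ≡ m y`
      have hSm : p ∣ S - (m : O) := dvd_geom_sum₂_sub_of_dvd hu1 hv1 m
      -- the new element
      have hz : p ∣ y₀ - algebraMap R O μ * (e₁ * u₀ - e₂ * v₀) := by
        obtain ⟨s₁, hs₁⟩ := hu1
        obtain ⟨s₂, hs₂⟩ := hv1
        obtain ⟨s₃, hs₃⟩ := hSm
        obtain ⟨s₄, hs₄⟩ := hf
        refine ⟨-(algebraMap R O μ) * (e₁ * s₁ - e₂ * s₂ + y₀ * (s₄ * S + s₃)), ?_⟩
        linear_combination (-(algebraMap R O μ) * e₁) * hs₁ + (algebraMap R O μ * e₂) * hs₂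
          + (-(algebraMap R O μ) * y₀) * hs₃ + (-(algebraMap R O μ) * y₀ * S) * hs₄
          + (algebraMap R O μ) * he - y₀ * hμO
      obtain ⟨y', hy'eq⟩ := hz
      have he₁u : e₁ * u₀ ∈ M₁ := hCM₁ e₁ he₁ u₀ hu'
      have he₂v : e₂ * v₀ ∈ M₂ := hCM₂ e₂ he₂ v₀ hv'
      have hzM : y₀ - algebraMap R O μ * (e₁ * u₀ - e₂ * v₀) ∈ M₁₂ :=
        M₁₂.sub_mem hy' (hpM₁₂ μ _ (M₁₂.sub_mem (hM₁ he₁u) (hM₂ he₂v)))
      have hy'M : y' ∈ M₁₂ := satM₁₂ y' (by rw [← hy'eq]; exact hzM)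
      refine ⟨y', hy'M, ⟨u₀ - algebraMap R O (π ^ (a + 1) * μ) * (e₁ * u₀),
        M₁.sub_mem hu' (hpM₁ _ _ he₁u), v₀ - algebraMap R O (π ^ (a + 1) * μ) * (e₂ * v₀),
        M₂.sub_mem hv' (hpM₂ _ _ he₂v), ?_⟩, ?_⟩
      · have : p ^ (a + 1 + 1) * y' = p ^ (a + 1) * (p * y') := by rw [pow_succ]; ring
        rw [this, ← hy'eq, map_mul, map_pow]
        linear_combination huv'
      · rintro ⟨U, hU, V, hV, hUV⟩
        apply hno'
        refine ⟨U + algebraMap R O (π ^ a * μ) * (e₁ * u₀), M₁.add_mem hU (hpM₁ _ _ he₁u),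
          V + algebraMap R O (π ^ a * μ) * (e₂ * v₀), M₂.add_mem hV (hpM₂ _ _ he₂v), ?_⟩
        have : p ^ (a + 1) * y' = p ^ a * (p * y') := by rw [pow_succ]; ring
        rw [this, ← hy'eq] at hUV
        rw [map_mul, map_pow]
        linear_combination hUV
  obtain ⟨c, hc⟩ := hbdd
  obtain ⟨y, hy, hex, hno⟩ := key c
  exact hno (hc y hy (c + 1) hex)

end Core

end Fermat.Agent.S18.H86
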