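/-
S18 / wave 4 (helper86): the abstract two-chart Čech torsion core (`CechCore.lean`) transported to
subalgebras and submodules of an ambient field `F`, with divisibility by `ϖ` inside the local ring
`O ⊆ F` expressed by helper47's `Dv ϖ O`.
-/
import Fermat.Agent.S18.H86.CechCore
import Fermat.Agent.S18.H47.LocalIdem

set_option autoImplicit false

noncomputable section

namespace Fermat.Agent.S18.H86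

open Fermat.Agent.S18.H47

variable {A₀ : Type*} [CommRing A₀] {F : Type*} [Field F] [Algebra A₀ F]

/-- **The Čech torsion core inside a field.** -/
theorem exists_ne_zero_mem_of_cech_field
    (ϖ : A₀) (O : Subalgebra A₀ F) (hnu : ¬ Dv ϖ O 1)
    (hloc : ∀ a : A₀, IsUnit a ∨ ϖ ∣ a)
    (m : ℕ) (hm : IsUnit (m : A₀))
    (C₁ C₂ C₁₂ : Subalgebra A₀ F)
    (M₁ M₂ M₁₂ : Submodule A₀ F) (hM₁ : M₁ ≤ M₁₂) (hM₂ : M₂ ≤ M₁₂)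
    (hMO : ∀ x ∈ M₁₂, x ∈ O)
    (hCM₁ : ∀ c ∈ C₁, ∀ x ∈ M₁, c * x ∈ M₁) (hCM₂ : ∀ c ∈ C₂, ∀ x ∈ M₂, c * x ∈ M₂)
    (satC₁ : ∀ x ∈ O, ϖ • x ∈ C₁ → x ∈ C₁) (satC₂ : ∀ x ∈ O, ϖ • x ∈ C₂ → x ∈ C₂)
    (satM₁ : ∀ x ∈ O, ϖ • x ∈ M₁ → x ∈ M₁) (satM₂ : ∀ x ∈ O, ϖ • x ∈ M₂ → x ∈ M₂)
    (satM₁₂ : ∀ x ∈ O, ϖ • x ∈ M₁₂ → x ∈ M₁₂)
    (constC : ∀ c₁ ∈ C₁, ∀ c₂ ∈ C₂, c₁ ∈ O → c₂ ∈ O → Dv ϖ O (c₁ - c₂) →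
      ∃ a : A₀, Dv ϖ O (c₁ - algebraMap A₀ F a))
    (constM : ∀ b₁ ∈ M₁, ∀ b₂ ∈ M₂, Dv ϖ O (b₁ - b₂) →
      ∃ a : A₀, Dv ϖ O (b₁ - algebraMap A₀ F a))
    (f : F) (hfO : f ∈ O) (hf : Dv ϖ O (f - 1))
    (hpow₁ : ∀ x ∈ M₁, f * x ^ m ∈ C₁) (hpow₂ : ∀ x ∈ M₂, f * x ^ m ∈ C₂)
    (hpow₁₂ : ∀ y ∈ M₁₂, ∀ x₁ ∈ M₁, ∀ x₂ ∈ M₂, ∀ i j : ℕ, i + j + 1 = m →
      f * y * (x₁ ^ i * x₂ ^ j) ∈ C₁₂)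
    (b₁ b₂ : F) (hb₁ : b₁ ∈ M₁) (hb₂ : b₂ ∈ M₂)
    (hb₁1 : Dv ϖ O (b₁ - 1)) (hb₂1 : Dv ϖ O (b₂ - 1))
    (hbdd : ∃ c : ℕ, ∀ y ∈ M₁₂, ∀ a : ℕ,
      (∃ u ∈ M₁, ∃ v ∈ M₂, ϖ ^ a • y = u - v) → ∃ u ∈ M₁, ∃ v ∈ M₂, ϖ ^ c • y = u - v) :
    ∃ h : F, h ≠ 0 ∧ h ∈ M₁ ∧ h ∈ M₂ := by
  -- divisibility in `↥O`
  have hdv : ∀ z : ↥O, algebraMap A₀ ↥O ϖ ∣ z ↔ Dv ϖ O (z : F) := fun z => (dv_iff_dvd z).symm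
  have hcoe : ∀ (n : ℕ) (x : ↥O), ((algebraMap A₀ ↥O ϖ ^ n * x : ↥O) : F) = ϖ ^ n • (x : F) := by
    intro n x
    rw [← map_pow, Algebra.smul_def]
    rfl
  have hcoe1 : ∀ x : ↥O, ((algebraMap A₀ ↥O ϖ * x : ↥O) : F) = ϖ • (x : F) := by
    intro x
    rw [Algebra.smul_def]
    rfl
  obtain ⟨c, hc⟩ := hbdd
  obtain ⟨h, hh0, hh1, hh2⟩ := exists_ne_zero_mem_inf_of_cech (R := A₀) (O := ↥O) ϖ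
    (by
      intro hu
      obtain ⟨u, hu⟩ := isUnit_iff_exists_inv.mp hu
      apply hnu
      refine ⟨(u : F), u.2, ?_⟩
      rw [← hcoe1, hu]
      rfl)
    hloc m hm (C₁.comap O.val) (C₂.comap O.val) (C₁₂.comap O.val)
    (M₁.comap O.val.toLinearMap) (M₂.comap O.val.toLinearMap) (M₁₂.comap O.val.toLinearMap)
    (Submodule.comap_mono hM₁) (Submodule.comap_mono hM₂)
    (fun c hc x hx => hCM₁ _ hc _ hx) (fun c hc x hx => hCM₂ _ hc _ hx)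
    (fun x hx => satC₁ (x : F) x.2 (by rw [← hcoe1]; exact hx))
    (fun x hx => satC₂ (x : F) x.2 (by rw [← hcoe1]; exact hx))
    (fun x hx => satM₁ (x : F) x.2 (by rw [← hcoe1]; exact hx))
    (fun x hx => satM₂ (x : F) x.2 (by rw [← hcoe1]; exact hx))
    (fun x hx => satM₁₂ (x : F) x.2 (by rw [← hcoe1]; exact hx))
    (fun c₁ hc₁ c₂ hc₂ hd => by
      obtain ⟨a, ha⟩ := constC _ hc₁ _ hc₂ c₁.2 c₂.2 ((hdv _).mp hd)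
      exact ⟨a, (hdv _).mpr ha⟩)
    (fun b₁ hb₁ b₂ hb₂ hd => by
      obtain ⟨a, ha⟩ := constM _ hb₁ _ hb₂ ((hdv _).mp hd)
      exact ⟨a, (hdv _).mpr ha⟩)
    ⟨f, hfO⟩ ((hdv _).mpr hf)
    (fun x hx => hpow₁ _ hx) (fun x hx => hpow₂ _ hx)
    (fun y hy x₁ hx₁ x₂ hx₂ i j hij => hpow₁₂ _ hy _ hx₁ _ hx₂ i j hij)
    ⟨b₁, hMO _ (hM₁ hb₁)⟩ ⟨b₂, hMO _ (hM₂ hb₂)⟩ hb₁ hb₂ ((hdv _).mpr hb₁1) ((hdv _).mpr hb₂1)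
    ⟨c, fun y hy a ⟨u, hu, v, hv, huv⟩ => by
      have h1 : ϖ ^ a • (y : F) = (u : F) - (v : F) := by
        rw [← hcoe, huv]
        rfl
      obtain ⟨u', hu', v', hv', huv'⟩ := hc _ hy a ⟨_, hu, _, hv, h1⟩
      refine ⟨⟨u', hMO _ (hM₁ hu')⟩, hu', ⟨v', hMO _ (hM₂ hv')⟩, hv', Subtype.ext ?_⟩
      rw [hcoe]
      exact huv'⟩
  exact ⟨(h : F), fun h0 => hh0 (Subtype.ext h0), hh1, hh2⟩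

end Fermat.Agent.S18.H86
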