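/-
S18 / wave 4 (helper86): auxiliary lemmas for the E-free Kummer–Čech theorem `cech_charts`
(leaf K2-C of core 2): root-closed subalgebras, the module `{h | f * h ^ m ∈ C}`, prime elements,
saturation, finiteness.
-/
import Fermat.Agent.S18.H86.CechField
import Fermat.Agent.S18.H63.LocGlue
import Fermat.Agent.S18.H30.GlobalPow
import Fermat.Agent.S18.H30.CechFG

set_option autoImplicit false

open Polynomial

noncomputable section

namespace Fermat.Agent.S18.H86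

open Fermat.Agent.S18.H47

variable {A₀ : Type*} [CommRing A₀] {F : Type*} [Field F] [Algebra A₀ F]

/-- An integrally closed subalgebra with fraction field `F` is closed under `m`-th roots. -/
theorem mem_of_pow_mem (C : Subalgebra A₀ F) [IsIntegrallyClosed ↥C]
    (hfrac : ∀ x : F, ∃ a ∈ C, ∃ b ∈ C, b ≠ 0 ∧ x = a / b) {m : ℕ} (hm : m ≠ 0) {z : F}
    (hz : z ^ m ∈ C) : z ∈ C := by
  have := isFractionRing_of_frac C hfrac
  have hint : IsIntegral ↥C (z ^ m) := by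
    have h : z ^ m = algebraMap ↥C F ⟨z ^ m, hz⟩ := rfl
    rw [h]
    exact isIntegral_algebraMap
  obtain ⟨y, hy⟩ := IsIntegrallyClosed.exists_algebraMap_eq_of_isIntegral_pow
    (Nat.pos_of_ne_zero hm) hint
  rw [← hy]
  exact y.2

section PowSub

variable (f : F) (m : ℕ) (C : Subalgebra A₀ F) (hroot : ∀ z : F, z ^ m ∈ C → z ∈ C)

include hroot in
theorem mul_pow_mul_pow_mem {h h' : F} (hh : f * h ^ m ∈ C) (hh' : f * h' ^ m ∈ C) {k : ℕ}
    (hk : k ≤ m) : f * h ^ k * h' ^ (m - k) ∈ C := by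
  apply hroot
  obtain ⟨l, rfl⟩ := Nat.exists_eq_add_of_le hk
  have e : (f * h ^ k * h' ^ (k + l - k)) ^ (k + l)
      = (f * h ^ (k + l)) ^ k * (f * h' ^ (k + l)) ^ l := by
    rw [Nat.add_sub_cancel_left]
    ring
  rw [e]
  exact C.mul_mem (C.pow_mem hh _) (C.pow_mem hh' _)

include hroot in
theorem add_pow_mem {h h' : F} (hh : f * h ^ m ∈ C) (hh' : f * h' ^ m ∈ C) :
    f * (h + h') ^ m ∈ C := by
  rw [add_pow, Finset.mul_sum]
  refine C.sum_mem fun k hk => ?_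
  have hk' : k ≤ m := Nat.lt_succ_iff.mp (Finset.mem_range.mp hk)
  have e : f * (h ^ k * h' ^ (m - k) * (m.choose k : F))
      = (f * h ^ k * h' ^ (m - k)) * (m.choose k : F) := by ring
  rw [e]
  exact C.mul_mem (mul_pow_mul_pow_mem f m C hroot hh hh' hk') (natCast_mem C _)

include hroot in
theorem mul_mul_pow_mem {y x₁ x₂ : F} (hy : f * y ^ m ∈ C) (h₁ : f * x₁ ^ m ∈ C)
    (h₂ : f * x₂ ^ m ∈ C) {i j : ℕ} (hij : i + j + 1 = m) :
    f * y * (x₁ ^ i * x₂ ^ j) ∈ C := by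
  apply hroot
  subst hij
  have e : (f * y * (x₁ ^ i * x₂ ^ j)) ^ (i + j + 1)
      = (f * y ^ (i + j + 1)) * (f * x₁ ^ (i + j + 1)) ^ i * (f * x₂ ^ (i + j + 1)) ^ j := by
    ring
  rw [e]
  exact C.mul_mem (C.mul_mem hy (C.pow_mem h₁ _)) (C.pow_mem h₂ _)

/-- `{h | f * h ^ m ∈ C}`, the sections of "`f ^ (-1/m)`" over the chart `C`, as a submodule. -/
def powSub (hm : m ≠ 0) : Submodule A₀ F where
  carrier := {h | f * h ^ m ∈ C}
  zero_mem' := by
    show f * (0 : F) ^ m ∈ C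
    rw [zero_pow hm, mul_zero]
    exact C.zero_mem
  add_mem' := fun {h h'} hh hh' => add_pow_mem f m C hroot hh hh'
  smul_mem' := by
    intro r h hh
    show f * (r • h) ^ m ∈ C
    have e : f * (r • h) ^ m = r ^ m • (f * h ^ m) := by
      rw [_root_.smul_pow, mul_smul_comm]
    rw [e]
    exact C.smul_mem hh _

theorem mem_powSub (hm : m ≠ 0) {h : F} : h ∈ powSub f m C hroot hm ↔ f * h ^ m ∈ C := Iff.rfl

end PowSub

/-- `ϖ` is a prime element of `C` if `C / ϖ` is a domain. -/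
theorem isPrimeElt_of_isDomain (ϖ : A₀) (C : Subalgebra A₀ F) (hϖ0 : algebraMap A₀ F ϖ ≠ 0)
    (hdom : IsDomain (↥C ⧸ Ideal.span {algebraMap A₀ ↥C ϖ})) : IsPrimeElt ϖ C := by
  have hπ0 : algebraMap A₀ ↥C ϖ ≠ 0 := fun h0 => hϖ0 (by
    have h := congrArg (Subtype.val : ↥C → F) h0
    simpa using h)
  have hprime : Prime (algebraMap A₀ ↥C ϖ) :=
    (Ideal.span_singleton_prime hπ0).mp ((Ideal.Quotient.isDomain_iff_prime _).mp hdom)
  refine ⟨fun h => ?_, fun a ha b hb h => ?_⟩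
  · exact hprime.not_isUnit (isUnit_of_dvd_one ((dv_iff_dvd (1 : ↥C)).mp h))
  · rcases hprime.dvd_or_dvd ((dv_iff_dvd ((⟨a, ha⟩ : ↥C) * ⟨b, hb⟩)).mp h) with h | h
    · exact Or.inl ((dv_iff_dvd (⟨a, ha⟩ : ↥C)).mpr h)
    · exact Or.inr ((dv_iff_dvd (⟨b, hb⟩ : ↥C)).mpr h)

/-- Saturation: `C ∩ ϖ O = ϖ C` for the localisation `O` of `C` at `ϖ`. -/
theorem isLocAt_sat {ϖ : A₀} {C O : Subalgebra A₀ F} (hloc : IsLocAt ϖ C O)
    (hprime : IsPrimeElt ϖ C) (hϖ0 : algebraMap A₀ F ϖ ≠ 0) {x : F} (hx : x ∈ O)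
    (h : ϖ • x ∈ C) : x ∈ C := by
  obtain ⟨d, hd, hd'⟩ := hloc.dv_of_smul hprime h hx rfl
  have e : x = d := by
    rw [Algebra.smul_def, Algebra.smul_def] at hd'
    exact mul_left_cancel₀ hϖ0 hd'
  rw [e]
  exact hd

/-- Iterated saturation. -/
theorem sat_pow {ϖ : A₀} {C O : Subalgebra A₀ F} (hsat : ∀ x ∈ O, ϖ • x ∈ C → x ∈ C) (n : ℕ) :
    ∀ z ∈ O, ϖ ^ n • z ∈ C → z ∈ C := by
  induction n with
  | zero =>
    intro z _ hz
    simpa using hz
  | succ n ih =>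
    intro z hz h
    apply ih z hz
    apply hsat _ (O.smul_mem hz _)
    rw [smul_smul, ← pow_succ']
    exact h

/-- Congruent elements of `O` have congruent powers. -/
theorem dv_pow_sub_pow {ϖ : A₀} {O : Subalgebra A₀ F} {x y : F} (hx : x ∈ O) (hy : y ∈ O)
    (h : Dv ϖ O (x - y)) (m : ℕ) : Dv ϖ O (x ^ m - y ^ m) := by
  have e := (Commute.all x y).geom_sum₂_mul m
  rw [← e]
  exact h.mul_left (O.sum_mem fun i _ => O.mul_mem (O.pow_mem hx _) (O.pow_mem hy _))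

end Fermat.Agent.S18.H86
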