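/-
S18 / wave 4 (helper86): leaf K2-C of core 2 — the E-free Kummer–Čech theorem `cech_charts`
(statement of origin/helper19 `Core2.lean`, verbatim).

Proof: the abstract two-chart Čech torsion core (`CechCore.lean`, transported to a field in
`CechField.lean`) applied to `O :=` the localisation of `C₁` at `ϖ` (= that of `C₂`, by the glueing),
`C₁₂ := C₁[1/j]`, and the modules `M_i := {h | f * h ^ m ∈ C_i}`:
* `M_i` is a module since `C_i` is integrally closed (`CechAux.lean`);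
* saturation `C_i ∩ ϖ O = ϖ C_i` and the reduction of `M_i` lies in that of `C_i` (helper47);
* `M_i` contains an element `≡ 1 (mod ϖ)`: the reductions of `M_i` form an ideal of `C_i` which is
  contained in no maximal ideal, by the local factorisation of helper30;
* bounded torsion from the finiteness of `C₁` over `A₀[j]` (`CechFin.lean` + helper30).
-/
import Fermat.Agent.S18.H86.CechAux
import Fermat.Agent.S18.H86.CechFin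

set_option autoImplicit false

open Polynomial

noncomputable section

namespace Fermat.Agent.S18.H86

open Fermat.Agent.S18.H47

section Chart

variable {A₀ : Type*} [CommRing A₀] {F : Type*} [Field F] [Algebra A₀ F]

/-- The overlap ring `C[1/j]`. -/
def glueAlg (j : F) (C : Subalgebra A₀ F) (hj : j ∈ C) : Subalgebra A₀ F where
  carrier := {y | ∃ n : ℕ, j ^ n * y ∈ C}
  mul_mem' := by
    rintro a b ⟨n₁, h₁⟩ ⟨n₂, h₂⟩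
    refine ⟨n₁ + n₂, ?_⟩
    have e : j ^ (n₁ + n₂) * (a * b) = (j ^ n₁ * a) * (j ^ n₂ * b) := by ring
    rw [e]
    exact C.mul_mem h₁ h₂
  add_mem' := by
    rintro a b ⟨n₁, h₁⟩ ⟨n₂, h₂⟩
    refine ⟨n₁ + n₂, ?_⟩
    have e : j ^ (n₁ + n₂) * (a + b) = j ^ n₂ * (j ^ n₁ * a) + j ^ n₁ * (j ^ n₂ * b) := by ring
    rw [e]
    exact C.add_mem (C.mul_mem (C.pow_mem hj _) h₁) (C.mul_mem (C.pow_mem hj _) h₂)
  algebraMap_mem' := fun r => ⟨0, by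
    rw [pow_zero, one_mul]
    exact C.algebraMap_mem r⟩

theorem mem_glueAlg {j : F} {C : Subalgebra A₀ F} {hj : j ∈ C} {y : F} :
    y ∈ glueAlg j C hj ↔ ∃ n : ℕ, j ^ n * y ∈ C := Iff.rfl

/-- The reduction of `{h | f * h ^ m ∈ C}` lies in the reduction of `C`. -/
theorem exists_approx {ϖ : A₀} {C O : Subalgebra A₀ F} (hprime : IsPrimeElt ϖ C)
    (hloc : IsLocAt ϖ C O) (hϖ0 : algebraMap A₀ F ϖ ≠ 0)
    (hbar : IsIntegrallyClosed (↥C ⧸ Ideal.span {algebraMap A₀ ↥C ϖ}))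
    {m : ℕ} (hm : m ≠ 0) {f : F} (hf1 : Dv ϖ O (f - 1)) {h : F} (hhO : h ∈ O)
    (hh : f * h ^ m ∈ C) : ∃ α ∈ C, Dv ϖ O (h - α) := by
  obtain ⟨t, ht, hteq⟩ := hf1
  refine exists_approx_of_pow hprime hloc hϖ0 hbar m hm h hhO (f * h ^ m) hh (-(t * h ^ m))
    (O.neg_mem (O.mul_mem ht (O.pow_mem hhO m))) ?_
  have e : h ^ m - f * h ^ m = -((f - 1) * h ^ m) := by ring
  rw [e, hteq, smul_mul_assoc, smul_neg]

/-- `{h | f * h ^ m ∈ C} ⊆ O`. -/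
theorem mem_loc_of_mul_pow_mem {O : Subalgebra A₀ F} {m : ℕ}
    (hrootO : ∀ z : F, z ^ m ∈ O → z ∈ O) {C : Subalgebra A₀ F} (hCO : C ≤ O) {f : F}
    (hf0 : f ≠ 0) (hfinv : f⁻¹ ∈ O) {h : F} (hh : f * h ^ m ∈ C) : h ∈ O := by
  apply hrootO
  have e : h ^ m = f⁻¹ * (f * h ^ m) := by
    rw [← mul_assoc, inv_mul_cancel₀ hf0, one_mul]
  rw [e]
  exact O.mul_mem hfinv (hCO hh)

end Chart

section One

variable {A₀ : Type*} [CommRing A₀] [IsDomain A₀] [IsDiscreteValuationRing A₀]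
  {F : Type*} [Field F] [Algebra A₀ F] [FaithfulSMul A₀ F]

/-- **Local triviality modulo `ϖ`**: the module `{h | f * h ^ m ∈ C}` contains an element
congruent to `1`. -/
theorem exists_one_mem (ϖ : A₀) (hϖ : Irreducible ϖ) (m : ℕ) (hm : m ≠ 0)
    (C O : Subalgebra A₀ F) [IsIntegrallyClosed ↥C] [IsNoetherianRing ↥C]
    (hfrac : ∀ x : F, ∃ a ∈ C, ∃ b ∈ C, b ≠ 0 ∧ x = a / b)
    (hded : IsDedekindDomain (↥C ⧸ Ideal.span {algebraMap A₀ ↥C ϖ}))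
    (hprime : IsPrimeElt ϖ C) (hloc : IsLocAt ϖ C O)
    (hrootO : ∀ z : F, z ^ m ∈ O → z ∈ O)
    (f : F) (hf0 : f ≠ 0) (hfinv : f⁻¹ ∈ O) (hf1 : Dv ϖ O (f - 1))
    (hf : ∃ a ∈ C, ∃ b ∈ C, ¬ Dv ϖ C a ∧ ¬ Dv ϖ C b ∧ f * b = a)
    (hdiv : ∀ V : ValuationSubring F, (∀ a : A₀, a ≠ 0 → (algebraMap A₀ F a)⁻¹ ∈ V) →
      IsDiscreteValuationRing V → ∃ t : F, t ≠ 0 ∧ f / t ^ m ∈ V ∧ (f / t ^ m)⁻¹ ∈ V) :
    ∃ β : F, f * β ^ m ∈ C ∧ Dv ϖ O (β - 1) := by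
  classical
  have hϖ0 : algebraMap A₀ F ϖ ≠ 0 := fun h0 =>
    hϖ.ne_zero (FaithfulSMul.algebraMap_injective A₀ F (by rw [h0, map_zero]))
  have hbar : IsIntegrallyClosed (↥C ⧸ Ideal.span {algebraMap A₀ ↥C ϖ}) := inferInstance
  have hrootC : ∀ z : F, z ^ m ∈ C → z ∈ C := fun z hz => mem_of_pow_mem C hfrac hm hz
  have hMO : ∀ h : F, f * h ^ m ∈ C → h ∈ O := fun h hh =>
    mem_loc_of_mul_pow_mem hrootO hloc.le hf0 hfinv hh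
  let I : Ideal ↥C :=
    { carrier := {c | ∃ β : F, f * β ^ m ∈ C ∧ Dv ϖ O (β - (c : F))}
      zero_mem' := ⟨0, by
        rw [zero_pow hm, mul_zero]
        exact C.zero_mem, ⟨0, O.zero_mem, by simp⟩⟩
      add_mem' := by
        rintro c c' ⟨β, hβ, hd⟩ ⟨β', hβ', hd'⟩
        refine ⟨β + β', add_pow_mem f m C hrootC hβ hβ', ?_⟩
        have e : β + β' - ((c + c' : ↥C) : F) = (β - (c : F)) + (β' - (c' : F)) := by
          push_cast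
          ring
        rw [e]
        exact hd.add hd'
      smul_mem' := by
        rintro c' c ⟨β, hβ, hd⟩
        refine ⟨(c' : F) * β, ?_, ?_⟩
        · have e : f * ((c' : F) * β) ^ m = (c' : F) ^ m * (f * β ^ m) := by ring
          rw [e]
          exact C.mul_mem (C.pow_mem c'.2 m) hβ
        · have e : (c' : F) * β - ((c' • c : ↥C) : F) = (c' : F) * (β - (c : F)) := by
            rw [smul_eq_mul]
            push_cast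
            ring
          rw [e]
          exact hd.mul_left (hloc.le c'.2) }
  by_cases hI : I = ⊤
  · have h1 : (1 : ↥C) ∈ I := by
      rw [hI]
      trivial
    obtain ⟨β, hβ, hd⟩ := h1
    exact ⟨β, hβ, hd⟩
  · exfalso
    obtain ⟨x, hxmax, hIx⟩ := Ideal.exists_le_maximal I hI
    have hπI : algebraMap A₀ ↥C ϖ ∈ I := by
      refine ⟨0, ?_, ⟨-1, O.neg_mem O.one_mem, ?_⟩⟩
      · rw [zero_pow hm, mul_zero]
        exact C.zero_mem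
      · rw [Algebra.smul_def, mul_neg, mul_one, zero_sub]
        rfl
    have hπx := hIx hπI
    obtain ⟨a₀, ha₀, b₀, hb₀, hna₀, hnb₀, hfab⟩ := hf
    obtain ⟨t, ht0, a, ha, b, hb, hfab'⟩ :=
      Fermat.Agent.S18.H30.local_factor_subalgebra ϖ hϖ m hm C hfrac hded f
        ⟨a₀, ha₀, b₀, hb₀, hna₀, hnb₀, hfab⟩ hdiv x hxmax hπx
    -- `θ := b / t` lies in the module and `f θ ^ m = a b ^ (m - 1)` is a unit at `x`
    obtain ⟨k, rfl⟩ := Nat.exists_eq_add_one_of_ne_zero hm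
    have hθm : f * ((b : F) * t⁻¹) ^ (k + 1) = (a : F) * (b : F) ^ k := by
      have e : f * ((b : F) * t⁻¹) ^ (k + 1) = (f * (b : F)) * ((b : F) ^ k * (t⁻¹) ^ (k + 1)) := by
        ring
      have ht : t ^ (k + 1) * (t⁻¹) ^ (k + 1) = 1 := by
        rw [← mul_pow, mul_inv_cancel₀ ht0, one_pow]
      have e' : (a : F) * t ^ (k + 1) * ((b : F) ^ k * (t⁻¹) ^ (k + 1))
          = (a : F) * (b : F) ^ k * (t ^ (k + 1) * (t⁻¹) ^ (k + 1)) := by ring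
      rw [e, hfab', e', ht, mul_one]
    have hθC : f * ((b : F) * t⁻¹) ^ (k + 1) ∈ C := by
      rw [hθm]
      exact C.mul_mem a.2 (C.pow_mem b.2 _)
    have hθO : (b : F) * t⁻¹ ∈ O := hMO _ hθC
    obtain ⟨α, hα, hdα⟩ := exists_approx hprime hloc hϖ0 hbar hm hf1 hθO hθC
    have hαI : (⟨α, hα⟩ : ↥C) ∈ I := ⟨(b : F) * t⁻¹, hθC, hdα⟩
    have hαx := hIx hαI
    have hd1 : Dv ϖ O (α ^ (k + 1) - ((b : F) * t⁻¹) ^ (k + 1)) := by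
      refine dv_pow_sub_pow (hloc.le hα) hθO ?_ (k + 1)
      have := hdα.neg
      rwa [neg_sub] at this
    have hd2 : Dv ϖ O (((b : F) * t⁻¹) ^ (k + 1) - f * ((b : F) * t⁻¹) ^ (k + 1)) := by
      have e : ((b : F) * t⁻¹) ^ (k + 1) - f * ((b : F) * t⁻¹) ^ (k + 1)
          = -((f - 1) * ((b : F) * t⁻¹) ^ (k + 1)) := by ring
      rw [e]
      exact (hf1.mul_right (O.pow_mem hθO _)).neg
    have hd3 : Dv ϖ O (α ^ (k + 1) - (a : F) * (b : F) ^ k) := by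
      have h := hd1.add hd2
      rw [hθm] at h
      have e : α ^ (k + 1) - ((b : F) * t⁻¹) ^ (k + 1)
          + (((b : F) * t⁻¹) ^ (k + 1) - (a : F) * (b : F) ^ k)
          = α ^ (k + 1) - (a : F) * (b : F) ^ k := by ring
      rwa [e] at h
    obtain ⟨o, ho, hoeq⟩ := hd3
    obtain ⟨d, hd, hdeq⟩ := hloc.dv_of_smul hprime
      (C.sub_mem (C.pow_mem hα (k + 1)) (C.mul_mem a.2 (C.pow_mem b.2 k))) ho hoeq
    have hab : a * b ^ k = (⟨α, hα⟩ : ↥C) ^ (k + 1) - algebraMap A₀ ↥C ϖ * ⟨d, hd⟩ := by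
      apply Subtype.ext
      have h1 : ((algebraMap A₀ ↥C ϖ * (⟨d, hd⟩ : ↥C) : ↥C) : F) = ϖ • d := by
        rw [Algebra.smul_def]
        rfl
      have h2 : (((⟨α, hα⟩ : ↥C) ^ (k + 1) - algebraMap A₀ ↥C ϖ * ⟨d, hd⟩ : ↥C) : F)
          = α ^ (k + 1) - ϖ • d := by
        rw [← h1]
        rfl
      rw [h2, ← hdeq]
      push_cast
      ring
    have hmem : a * b ^ k ∈ x := by
      rw [hab]
      exact x.sub_mem (x.pow_mem_of_mem hαx (k + 1) (Nat.succ_pos k)) (x.mul_mem_right _ hπx)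
    have hxprime := hxmax.isPrime
    rcases hxprime.mem_or_mem hmem with h | h
    · exact ha h
    · exact hb (hxprime.mem_of_pow_mem _ h)

end One

section Main

/-- **K2-C: the E-free Kummer–Čech theorem.**  Two integrally closed charts `C₁ ∋ j`, `C₂ ∋ j⁻¹`
over a discrete valuation ring `A₀` with Dedekind special fibres, glued along `j`, whose
reductions only meet in the constants (`hconst`); `f` a one-unit whose divisor on the generic fibre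
is divisible by `m` (`hdiv`), `m` a unit of `A₀`.  Then `f * h ^ m` is a global function for some
`h ≠ 0`. -/
theorem cech_charts
    {A₀ : Type*} [CommRing A₀] [IsDomain A₀] [IsDiscreteValuationRing A₀]
    {F : Type*} [Field F] [Algebra A₀ F] [FaithfulSMul A₀ F]
    (ϖ : A₀) (hϖ : Irreducible ϖ) (m : ℕ) (hm : IsUnit (m : A₀)) (j : F)
    (C₁ C₂ : Subalgebra A₀ F) [IsIntegrallyClosed ↥C₁] [IsIntegrallyClosed ↥C₂]
    (hj₁ : j ∈ C₁) (hj₂ : j⁻¹ ∈ C₂)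
    (hfin₁ : ∃ s : Finset F, (C₁ : Set F) =
      Submodule.span (Algebra.adjoin A₀ ({j} : Set F)) (s : Set F))
    (hfin₂ : ∃ s : Finset F, (C₂ : Set F) =
      Submodule.span (Algebra.adjoin A₀ ({j⁻¹} : Set F)) (s : Set F))
    (hfrac : ∀ x : F, ∃ a ∈ C₁, ∃ b ∈ C₁, b ≠ 0 ∧ x = a / b)
    (hglue : ∀ x : F, (∃ n : ℕ, j ^ n * x ∈ C₁) ↔ (∃ n : ℕ, j⁻¹ ^ n * x ∈ C₂))
    (hded₁ : IsDedekindDomain (↥C₁ ⧸ Ideal.span {algebraMap A₀ ↥C₁ ϖ}))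
    (hded₂ : IsDedekindDomain (↥C₂ ⧸ Ideal.span {algebraMap A₀ ↥C₂ ϖ}))
    (hjbar : ∀ P : A₀[X], (∃ c ∈ C₁, Polynomial.aeval j P = ϖ • c) → ∀ i, ϖ ∣ P.coeff i)
    (f : F) (hf : ∃ a ∈ C₁, ∃ b ∈ C₁, (¬ ∃ c ∈ C₁, b = ϖ • c) ∧ (∃ c ∈ C₁, a - b = ϖ • c) ∧
      f * b = a)
    (hdiv : ∀ V : ValuationSubring F, (∀ a : A₀, a ≠ 0 → (algebraMap A₀ F a)⁻¹ ∈ V) →
      IsDiscreteValuationRing V → ∃ t : F, t ≠ 0 ∧ f / t ^ m ∈ V ∧ (f / t ^ m)⁻¹ ∈ V)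
    (hconst : ∀ c₁ ∈ C₁, ∀ c₂ ∈ C₂, (∃ n : ℕ, ∃ c ∈ C₁, j ^ n * (c₁ - c₂) = ϖ • c) →
      ∃ a : A₀, ∃ c ∈ C₁, c₁ - algebraMap A₀ F a = ϖ • c) :
    ∃ h : F, h ≠ 0 ∧ f * h ^ m ∈ C₁ ∧ f * h ^ m ∈ C₂ := by
  classical
  have hϖ0 : algebraMap A₀ F ϖ ≠ 0 := fun h0 =>
    hϖ.ne_zero (FaithfulSMul.algebraMap_injective A₀ F (by rw [h0, map_zero]))
  have hm0 : m ≠ 0 := by
    rintro rfl
    rw [Nat.cast_zero] at hm
    exact not_isUnit_zero hm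
  have hlocA : ∀ a : A₀, IsUnit a ∨ ϖ ∣ a := by
    intro a
    by_cases ha : IsUnit a
    · exact Or.inl ha
    · right
      have h1 : a ∈ IsLocalRing.maximalIdeal A₀ := (IsLocalRing.mem_maximalIdeal a).mpr ha
      rw [hϖ.maximalIdeal_eq] at h1
      exact Ideal.mem_span_singleton.mp h1
  -- prime elements
  have hp₁ : IsPrimeElt ϖ C₁ := isPrimeElt_of_isDomain ϖ C₁ hϖ0 hded₁.toIsDomain
  have hp₂ : IsPrimeElt ϖ C₂ := isPrimeElt_of_isDomain ϖ C₂ hϖ0 hded₂.toIsDomain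
  have hbar₁ : IsIntegrallyClosed (↥C₁ ⧸ Ideal.span {algebraMap A₀ ↥C₁ ϖ}) := inferInstance
  have hbar₂ : IsIntegrallyClosed (↥C₂ ⧸ Ideal.span {algebraMap A₀ ↥C₂ ϖ}) := inferInstance
  have hjn : ∀ n : ℕ, ¬ Dv ϖ C₁ (j ^ n) := by
    rintro n ⟨c, hc, hcn⟩
    have h1 := hjbar (X ^ n) ⟨c, hc, by rw [map_pow, aeval_X]; exact hcn⟩ n
    rw [coeff_X_pow, if_pos rfl] at h1
    exact hϖ.not_isUnit (isUnit_of_dvd_one h1)
  have hj0 : j ≠ 0 := by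
    have h1 := Fermat.Agent.S18.H63.ne_zero_of_not_dv (hjn 1)
    rwa [pow_one] at h1
  have hji0 : j⁻¹ ≠ 0 := inv_ne_zero hj0
  -- the local ring at the generic point of the special fibre
  obtain ⟨O, hloc₁⟩ := Fermat.Agent.S18.H63.exists_isLocAt ϖ C₁ hp₁
  have hloc₂ : IsLocAt ϖ C₂ O :=
    Fermat.Agent.S18.H63.isLocAt_of_glue ϖ C₁ C₂ O hp₁ hp₂ j hj₁ hj₂ hglue hjn hloc₁
  have h12 : ∀ x ∈ C₁, ∃ n : ℕ, j⁻¹ ^ n * x ∈ C₂ := fun x hx =>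
    (hglue x).mp ⟨0, by rw [pow_zero, one_mul]; exact hx⟩
  have h21 : ∀ x ∈ C₂, ∃ n : ℕ, j ^ n * x ∈ C₁ := fun x hx =>
    (hglue x).mpr ⟨0, by rw [pow_zero, one_mul]; exact hx⟩
  -- fractions of `C₂`
  have hfrac₂ : ∀ x : F, ∃ a ∈ C₂, ∃ b ∈ C₂, b ≠ 0 ∧ x = a / b := by
    intro x
    obtain ⟨a, ha, b, hb, hb0, rfl⟩ := hfrac x
    obtain ⟨n₁, hn₁⟩ := h12 a ha
    obtain ⟨n₂, hn₂⟩ := h12 b hb
    refine ⟨j⁻¹ ^ (n₁ + n₂) * a, ?_, j⁻¹ ^ (n₁ + n₂) * b, ?_, ?_, ?_⟩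
    · rw [pow_add, mul_comm (j⁻¹ ^ n₁), mul_assoc]
      exact C₂.mul_mem (C₂.pow_mem hj₂ _) hn₁
    · rw [pow_add, mul_assoc]
      exact C₂.mul_mem (C₂.pow_mem hj₂ _) hn₂
    · exact mul_ne_zero (pow_ne_zero _ hji0) hb0
    · rw [mul_div_mul_left _ _ (pow_ne_zero _ hji0)]
  -- root closedness
  have hOic : IsIntegrallyClosed ↥O := hloc₁.isIntegrallyClosed hp₁ hfrac
  have hrootO : ∀ z : F, z ^ m ∈ O → z ∈ O := fun z hz =>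
    mem_of_pow_mem O (hloc₁.frac hfrac) hm0 hz
  have hroot₁ : ∀ z : F, z ^ m ∈ C₁ → z ∈ C₁ := fun z hz => mem_of_pow_mem C₁ hfrac hm0 hz
  have hroot₂ : ∀ z : F, z ^ m ∈ C₂ → z ∈ C₂ := fun z hz => mem_of_pow_mem C₂ hfrac₂ hm0 hz
  have hroot₁₂ : ∀ z : F, z ^ m ∈ glueAlg j C₁ hj₁ → z ∈ glueAlg j C₁ hj₁ := by
    rintro z ⟨n, hn⟩
    refine ⟨n, hroot₁ _ ?_⟩
    obtain ⟨k, rfl⟩ := Nat.exists_eq_add_one_of_ne_zero hm0
    have e : (j ^ n * z) ^ (k + 1) = (j ^ n) ^ k * (j ^ n * z ^ (k + 1)) := by ring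
    rw [e]
    exact C₁.mul_mem (C₁.pow_mem (C₁.pow_mem hj₁ _) _) hn
  have hC₁le : C₁ ≤ glueAlg j C₁ hj₁ := fun y hy => ⟨0, by rw [pow_zero, one_mul]; exact hy⟩
  have hC₂le : C₂ ≤ glueAlg j C₁ hj₁ := fun y hy => h21 y hy
  have hjO : ∀ n : ℕ, j ^ n ∈ O := fun n => O.pow_mem (hloc₁.le hj₁) n
  have hC₁₂O : glueAlg j C₁ hj₁ ≤ O := by
    rintro y ⟨n, hn⟩
    have h1 : (j ^ n)⁻¹ ∈ O := hloc₁.inv_mem _ (C₁.pow_mem hj₁ n) (hjn n)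
    have e : y = (j ^ n)⁻¹ * (j ^ n * y) := by
      rw [← mul_assoc, inv_mul_cancel₀ (pow_ne_zero n hj0), one_mul]
    rw [e]
    exact O.mul_mem h1 (hloc₁.le hn)
  -- the one-unit `f`
  obtain ⟨a₀, ha₀, b₀, hb₀, hnb₀, hdab, hfab⟩ := hf
  have hna₀ : ¬ Dv ϖ C₁ a₀ := by
    intro h
    apply hnb₀
    have h1 : Dv ϖ C₁ (a₀ - (a₀ - b₀)) := h.sub hdab
    rwa [sub_sub_cancel] at h1
  have ha₀0 : a₀ ≠ 0 := Fermat.Agent.S18.H63.ne_zero_of_not_dv hna₀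
  have hb₀0 : b₀ ≠ 0 := Fermat.Agent.S18.H63.ne_zero_of_not_dv hnb₀
  have hf_eq : f = a₀ * b₀⁻¹ := by
    rw [← hfab, mul_assoc, mul_inv_cancel₀ hb₀0, mul_one]
  have hf0 : f ≠ 0 := by
    rw [hf_eq]
    exact mul_ne_zero ha₀0 (inv_ne_zero hb₀0)
  have hfO : f ∈ O := by
    rw [hf_eq]
    exact O.mul_mem (hloc₁.le ha₀) (hloc₁.inv_mem _ hb₀ hnb₀)
  have hfinv : f⁻¹ ∈ O := by
    rw [hf_eq, mul_inv, inv_inv]
    exact O.mul_mem (hloc₁.inv_mem _ ha₀ hna₀) (hloc₁.le hb₀)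
  have hf1 : Dv ϖ O (f - 1) := by
    obtain ⟨c, hc, hceq⟩ := hdab
    refine ⟨c * b₀⁻¹, O.mul_mem (hloc₁.le hc) (hloc₁.inv_mem _ hb₀ hnb₀), ?_⟩
    rw [← smul_mul_assoc, ← hceq, hf_eq, sub_mul, mul_inv_cancel₀ hb₀0]
  -- the modules
  have hM₁le : powSub f m C₁ hroot₁ hm0 ≤ powSub f m (glueAlg j C₁ hj₁) hroot₁₂ hm0 :=
    fun x hx => hC₁le hx
  have hM₂le : powSub f m C₂ hroot₂ hm0 ≤ powSub f m (glueAlg j C₁ hj₁) hroot₁₂ hm0 :=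
    fun x hx => hC₂le hx
  have hMO : ∀ x ∈ powSub f m (glueAlg j C₁ hj₁) hroot₁₂ hm0, x ∈ O := fun x hx =>
    mem_loc_of_mul_pow_mem hrootO hC₁₂O hf0 hfinv hx
  have hCM : ∀ (C : Subalgebra A₀ F) (hroot : ∀ z : F, z ^ m ∈ C → z ∈ C),
      ∀ c ∈ C, ∀ x ∈ powSub f m C hroot hm0, c * x ∈ powSub f m C hroot hm0 := by
    intro C hroot c hc x hx
    show f * (c * x) ^ m ∈ C
    have e : f * (c * x) ^ m = c ^ m * (f * x ^ m) := by ring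
    rw [e]
    exact C.mul_mem (C.pow_mem hc m) hx
  -- saturation
  have satC₁ : ∀ x ∈ O, ϖ • x ∈ C₁ → x ∈ C₁ := fun x hx h => isLocAt_sat hloc₁ hp₁ hϖ0 hx h
  have satC₂ : ∀ x ∈ O, ϖ • x ∈ C₂ → x ∈ C₂ := fun x hx h => isLocAt_sat hloc₂ hp₂ hϖ0 hx h
  have satC₁₂ : ∀ x ∈ O, ϖ • x ∈ glueAlg j C₁ hj₁ → x ∈ glueAlg j C₁ hj₁ := by
    rintro x hx ⟨n, hn⟩
    refine ⟨n, satC₁ _ (O.mul_mem (hjO n) hx) ?_⟩
    rw [mul_smul_comm] at hn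
    exact hn
  have satM : ∀ (C : Subalgebra A₀ F) (hroot : ∀ z : F, z ^ m ∈ C → z ∈ C),
      (∀ x ∈ O, ϖ • x ∈ C → x ∈ C) →
      ∀ x ∈ O, ϖ • x ∈ powSub f m C hroot hm0 → x ∈ powSub f m C hroot hm0 := by
    intro C hroot hsat x hx h
    have h' : ϖ ^ m • (f * x ^ m) ∈ C := by
      have e : f * (ϖ • x) ^ m = ϖ ^ m • (f * x ^ m) := by
        rw [_root_.smul_pow, mul_smul_comm]
      rw [← e]
      exact h
    exact sat_pow hsat m _ (O.mul_mem hfO (O.pow_mem hx m)) h'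
  -- constants
  have constC : ∀ c₁ ∈ C₁, ∀ c₂ ∈ C₂, c₁ ∈ O → c₂ ∈ O → Dv ϖ O (c₁ - c₂) →
      ∃ a : A₀, Dv ϖ O (c₁ - algebraMap A₀ F a) := by
    rintro c₁ hc₁ c₂ hc₂ - - ⟨t, ht, hteq⟩
    obtain ⟨n, hn⟩ := h21 c₂ hc₂
    have h1 : j ^ n * (c₁ - c₂) ∈ C₁ := by
      rw [mul_sub]
      exact C₁.sub_mem (C₁.mul_mem (C₁.pow_mem hj₁ n) hc₁) hn
    have h2 : j ^ n * (c₁ - c₂) = ϖ • (j ^ n * t) := by
      rw [hteq, mul_smul_comm]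
    obtain ⟨c, hc, hceq⟩ := hloc₁.dv_of_smul hp₁ h1 (O.mul_mem (hjO n) ht) h2
    obtain ⟨a, c', hc', hc'eq⟩ := hconst c₁ hc₁ c₂ hc₂ ⟨n, c, hc, hceq⟩
    exact ⟨a, c', hloc₁.le hc', hc'eq⟩
  have constM : ∀ b₁ ∈ powSub f m C₁ hroot₁ hm0, ∀ b₂ ∈ powSub f m C₂ hroot₂ hm0,
      Dv ϖ O (b₁ - b₂) → ∃ a : A₀, Dv ϖ O (b₁ - algebraMap A₀ F a) := by
    intro b₁ hb₁ b₂ hb₂ hd
    obtain ⟨α₁, hα₁, hd₁⟩ := exists_approx hp₁ hloc₁ hϖ0 hbar₁ hm0 hf1 (hMO _ (hM₁le hb₁)) hb₁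
    obtain ⟨α₂, hα₂, hd₂⟩ := exists_approx hp₂ hloc₂ hϖ0 hbar₂ hm0 hf1 (hMO _ (hM₂le hb₂)) hb₂
    have hd12 : Dv ϖ O (α₁ - α₂) := by
      have h := (hd.sub hd₁).add hd₂
      have e : b₁ - b₂ - (b₁ - α₁) + (b₂ - α₂) = α₁ - α₂ := by ring
      rwa [e] at h
    obtain ⟨a, ha⟩ := constC α₁ hα₁ α₂ hα₂ (hloc₁.le hα₁) (hloc₂.le hα₂) hd12
    refine ⟨a, ?_⟩
    have h := hd₁.add ha
    have e : b₁ - α₁ + (α₁ - algebraMap A₀ F a) = b₁ - algebraMap A₀ F a := by ring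
    rwa [e] at h
  -- the elements congruent to `1`
  have hN₁ : IsNoetherianRing ↥C₁ := isNoetherianRing_of_span j C₁ hj₁ hfin₁
  have hN₂ : IsNoetherianRing ↥C₂ := isNoetherianRing_of_span j⁻¹ C₂ hj₂ hfin₂
  obtain ⟨β₁, hβ₁, hβ₁1⟩ := exists_one_mem ϖ hϖ m hm0 C₁ O hfrac hded₁ hp₁ hloc₁ hrootO f hf0
    hfinv hf1 ⟨a₀, ha₀, b₀, hb₀, hna₀, hnb₀, hfab⟩ hdiv
  have hf₂ : ∃ a ∈ C₂, ∃ b ∈ C₂, ¬ Dv ϖ C₂ a ∧ ¬ Dv ϖ C₂ b ∧ f * b = a := by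
    obtain ⟨n₁, hn₁⟩ := h12 a₀ ha₀
    obtain ⟨n₂, hn₂⟩ := h12 b₀ hb₀
    have key : ∀ c ∈ C₁, ¬ Dv ϖ C₁ c → ¬ Dv ϖ C₂ (j⁻¹ ^ (n₁ + n₂) * c) := by
      rintro c hc hnc ⟨d, hd, hdeq⟩
      apply hnc
      refine hloc₁.dv_of_smul hp₁ hc (O.mul_mem (hjO (n₁ + n₂)) (hloc₂.le hd))
        (o := j ^ (n₁ + n₂) * d) ?_
      rw [← mul_smul_comm, ← hdeq, ← mul_assoc, ← mul_pow, mul_inv_cancel₀ hj0, one_pow, one_mul]
    refine ⟨j⁻¹ ^ (n₁ + n₂) * a₀, ?_, j⁻¹ ^ (n₁ + n₂) * b₀, ?_, key a₀ ha₀ hna₀, key b₀ hb₀ hnb₀,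
      ?_⟩
    · rw [pow_add, mul_comm (j⁻¹ ^ n₁), mul_assoc]
      exact C₂.mul_mem (C₂.pow_mem hj₂ _) hn₁
    · rw [pow_add, mul_assoc]
      exact C₂.mul_mem (C₂.pow_mem hj₂ _) hn₂
    · rw [mul_left_comm, hfab]
  obtain ⟨β₂, hβ₂, hβ₂1⟩ := exists_one_mem ϖ hϖ m hm0 C₂ O hfrac₂ hded₂ hp₂ hloc₂ hrootO f hf0
    hfinv hf1 hf₂ hdiv
  -- bounded torsion
  have haN : ∀ x ∈ powSub f m C₁ hroot₁ hm0, a₀ * x ∈ C₁ := by
    intro x hx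
    apply hroot₁
    obtain ⟨k, rfl⟩ := Nat.exists_eq_add_one_of_ne_zero hm0
    have e : (a₀ * x) ^ (k + 1) = a₀ ^ k * b₀ * (f * x ^ (k + 1)) := by
      rw [← hfab]
      ring
    rw [e]
    exact C₁.mul_mem (C₁.mul_mem (C₁.pow_mem ha₀ k) hb₀) hx
  obtain ⟨T, hTN, hTspan⟩ := exists_finset_span_pow j C₁ hj₁ hfin₁ (powSub f m C₁ hroot₁ hm0)
    (hCM C₁ hroot₁) a₀ ha₀0 haN
  have hbdd := exists_bdd_of_two_chart ϖ j hj0 (powSub f m C₁ hroot₁ hm0)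
    (powSub f m C₂ hroot₂ hm0) (powSub f m (glueAlg j C₁ hj₁) hroot₁₂ hm0) T hTspan
    (fun μ hμ s => hCM C₁ hroot₁ _ (C₁.pow_mem hj₁ s) μ (hTN μ hμ))
    (by
      intro μ hμ
      obtain ⟨n₀, hn₀⟩ := h12 _ (hTN μ hμ)
      refine ⟨n₀, fun t ht => ?_⟩
      show f * (j⁻¹ ^ t * μ) ^ m ∈ C₂
      obtain ⟨k, rfl⟩ := Nat.exists_eq_add_one_of_ne_zero hm0
      obtain ⟨l, rfl⟩ := Nat.exists_eq_add_of_le ht
      have e : f * (j⁻¹ ^ (n₀ + l) * μ) ^ (k + 1)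
          = j⁻¹ ^ (l + (n₀ + l) * k) * (j⁻¹ ^ n₀ * (f * μ ^ (k + 1))) := by ring
      rw [e]
      exact C₂.mul_mem (C₂.pow_mem hj₂ _) hn₀)
    (by
      rintro y ⟨n, hn⟩
      refine ⟨n, ?_⟩
      show f * (j ^ n * y) ^ m ∈ C₁
      obtain ⟨k, rfl⟩ := Nat.exists_eq_add_one_of_ne_zero hm0
      have e : f * (j ^ n * y) ^ (k + 1) = (j ^ n) ^ k * (j ^ n * (f * y ^ (k + 1))) := by ring
      rw [e]
      exact C₁.mul_mem (C₁.pow_mem (C₁.pow_mem hj₁ _) _) hn)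
  -- the core
  have hnu : ¬ Dv ϖ O 1 := by
    rintro ⟨d, hd, h1⟩
    exact hp₁.one (hloc₁.dv_of_smul hp₁ C₁.one_mem hd h1)
  obtain ⟨h, hh0, hh1, hh2⟩ := exists_ne_zero_mem_of_cech_field ϖ O hnu hlocA m hm C₁ C₂
    (glueAlg j C₁ hj₁) (powSub f m C₁ hroot₁ hm0) (powSub f m C₂ hroot₂ hm0)
    (powSub f m (glueAlg j C₁ hj₁) hroot₁₂ hm0) hM₁le hM₂le hMO (hCM C₁ hroot₁) (hCM C₂ hroot₂)
    satC₁ satC₂ (satM C₁ hroot₁ satC₁) (satM C₂ hroot₂ satC₂)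
    (satM (glueAlg j C₁ hj₁) hroot₁₂ satC₁₂) constC constM f hfO hf1
    (fun x hx => hx) (fun x hx => hx)
    (fun y hy x₁ hx₁ x₂ hx₂ i j' hij =>
      mul_mul_pow_mem f m (glueAlg j C₁ hj₁) hroot₁₂ hy (hM₁le hx₁) (hM₂le hx₂) hij)
    β₁ β₂ hβ₁ hβ₂ hβ₁1 hβ₂1 hbdd
  exact ⟨h, hh0, hh1, hh2⟩

end Main

end Fermat.Agent.S18.H86
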