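/-
S18 / wave 4 (helper86): finiteness lemmas for `cech_charts` (leaf K2-C of core 2).

A subalgebra `C ⊆ F` which is the `A₀[j]`-span of a finite set is a noetherian ring, its
"fractional ideals" are `A₀`-spanned by the `j ^ s * μ` for finitely many `μ`, and hence the
`ϖ`-power torsion of the first Čech group of two such charts is bounded.
-/
import Fermat.Agent.S18.H30.CechFG

set_option autoImplicit false

noncomputable section

namespace Fermat.Agent.S18.H86

variable {A₀ : Type*} [CommRing A₀] {F : Type*} [Field F] [Algebra A₀ F]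

/-- A subalgebra which is a finite `A₀[j]`-module is a noetherian ring. -/
theorem isNoetherianRing_of_span [IsNoetherianRing A₀] (j : F) (C : Subalgebra A₀ F) (hj : j ∈ C)
    (hfin : ∃ s : Finset F, (C : Set F) =
      Submodule.span (Algebra.adjoin A₀ ({j} : Set F)) (s : Set F)) :
    IsNoetherianRing ↥C := by
  classical
  obtain ⟨s, hs⟩ := hfin
  have hsC : ∀ σ ∈ s, σ ∈ C := by
    intro σ hσ
    have h : σ ∈ (C : Set F) := by
      rw [hs]
      exact Submodule.subset_span hσ
    exact h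
  have hC : Algebra.adjoin A₀ ((insert j s : Finset F) : Set F) = C := by
    apply le_antisymm
    · refine Algebra.adjoin_le fun x hx => ?_
      rw [Finset.coe_insert, Set.mem_insert_iff] at hx
      rcases hx with rfl | hx
      · exact hj
      · exact hsC x hx
    · intro c hc
      have hc' : c ∈ Submodule.span (Algebra.adjoin A₀ ({j} : Set F)) (s : Set F) := by
        have h : c ∈ (C : Set F) := hc
        rw [hs] at h
        exact h
      clear hc
      induction hc' using Submodule.span_induction with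
      | mem σ hσ =>
        exact Algebra.subset_adjoin (by rw [Finset.coe_insert]; exact Set.mem_insert_of_mem _ hσ)
      | zero => exact Subalgebra.zero_mem _
      | add u v _ _ hu hv => exact Subalgebra.add_mem _ hu hv
      | smul b u _ hu =>
        have hb : (b : F) ∈ Algebra.adjoin A₀ ((insert j s : Finset F) : Set F) :=
          Algebra.adjoin_mono (by
            rw [Finset.coe_insert]
            exact Set.singleton_subset_iff.mpr (Set.mem_insert _ _)) b.2
        exact Subalgebra.mul_mem _ hb hu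
  exact isNoetherianRing_of_fg ⟨insert j s, hC⟩

/-- A "fractional ideal" `N` of a subalgebra `C` which is a finite `A₀[j]`-module is spanned over
`A₀` by the `j ^ s * μ`, `μ` in a finite subset of `N`. -/
theorem exists_finset_span_pow [IsNoetherianRing A₀] (j : F) (C : Subalgebra A₀ F) (hj : j ∈ C)
    (hfin : ∃ s : Finset F, (C : Set F) =
      Submodule.span (Algebra.adjoin A₀ ({j} : Set F)) (s : Set F))
    (N : Submodule A₀ F) (hCN : ∀ c ∈ C, ∀ x ∈ N, c * x ∈ N) (a : F) (ha : a ≠ 0)
    (haN : ∀ x ∈ N, a * x ∈ C) :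
    ∃ T : Finset F, (∀ μ ∈ T, μ ∈ N) ∧
      ∀ y ∈ N, y ∈ Submodule.span A₀ {z : F | ∃ (s : ℕ) (μ : F), μ ∈ T ∧ z = j ^ s * μ} := by
  classical
  obtain ⟨s, hs⟩ := hfin
  have hB : IsNoetherianRing ↥(Algebra.adjoin A₀ ({j} : Set F)) :=
    isNoetherianRing_of_fg ⟨{j}, by rw [Finset.coe_singleton]⟩
  have hBC : Algebra.adjoin A₀ ({j} : Set F) ≤ C :=
    Algebra.adjoin_le (Set.singleton_subset_iff.mpr hj)
  -- `N` as a module over `A₀[j]`
  let NB : Submodule ↥(Algebra.adjoin A₀ ({j} : Set F)) F :=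
    { carrier := N
      add_mem' := fun hx hy => N.add_mem hx hy
      zero_mem' := N.zero_mem
      smul_mem' := fun b x hx => hCN _ (hBC b.2) x hx }
  let P : Submodule ↥(Algebra.adjoin A₀ ({j} : Set F)) F :=
    Submodule.span ↥(Algebra.adjoin A₀ ({j} : Set F)) ((fun σ => a⁻¹ * σ) '' (s : Set F))
  have hP : IsNoetherian ↥(Algebra.adjoin A₀ ({j} : Set F)) P :=
    isNoetherian_span_of_finite _ ((s.finite_toSet).image _)
  have hle : NB ≤ P := by
    intro x hx
    have hax : a * x ∈ (C : Set F) := haN x hx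
    rw [hs] at hax
    have key : ∀ z ∈ Submodule.span ↥(Algebra.adjoin A₀ ({j} : Set F)) (s : Set F),
        a⁻¹ * z ∈ P := by
      intro z hz
      induction hz using Submodule.span_induction with
      | mem σ hσ => exact Submodule.subset_span ⟨σ, hσ, rfl⟩
      | zero =>
        rw [mul_zero]
        exact P.zero_mem
      | add u v _ _ hu hv =>
        rw [mul_add]
        exact P.add_mem hu hv
      | smul b u _ hu =>
        have e : a⁻¹ * (b • u) = b • (a⁻¹ * u) := by
          rw [Subalgebra.smul_def, Subalgebra.smul_def]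
          ring
        rw [e]
        exact P.smul_mem b hu
    have h := key _ hax
    rwa [← mul_assoc, inv_mul_cancel₀ ha, one_mul] at h
  obtain ⟨T, hT⟩ := (isNoetherian_submodule.mp hP) NB hle
  refine ⟨T, fun μ hμ => ?_, fun y hy => ?_⟩
  · have h : μ ∈ NB := by
      rw [← hT]
      exact Submodule.subset_span hμ
    exact h
  · have hy' : y ∈ Submodule.span ↥(Algebra.adjoin A₀ ({j} : Set F)) (T : Set F) := by
      rw [hT]
      exact hy
    clear hy
    have hj_mul : ∀ z ∈ Submodule.span A₀ {z : F | ∃ (s : ℕ) (μ : F), μ ∈ T ∧ z = j ^ s * μ},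
        j * z ∈ Submodule.span A₀ {z : F | ∃ (s : ℕ) (μ : F), μ ∈ T ∧ z = j ^ s * μ} := by
      intro z hz
      induction hz using Submodule.span_induction with
      | mem z hz =>
        obtain ⟨s, μ, hμ, rfl⟩ := hz
        exact Submodule.subset_span ⟨s + 1, μ, hμ, by ring⟩
      | zero =>
        rw [mul_zero]
        exact Submodule.zero_mem _
      | add u v _ _ hu hv =>
        rw [mul_add]
        exact Submodule.add_mem _ hu hv
      | smul r u _ hu =>
        rw [mul_smul_comm]
        exact Submodule.smul_mem _ r hu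
    have hB_mul : ∀ b ∈ Algebra.adjoin A₀ ({j} : Set F),
        ∀ z ∈ Submodule.span A₀ {z : F | ∃ (s : ℕ) (μ : F), μ ∈ T ∧ z = j ^ s * μ},
        b * z ∈ Submodule.span A₀ {z : F | ∃ (s : ℕ) (μ : F), μ ∈ T ∧ z = j ^ s * μ} := by
      intro b hb
      induction hb using Algebra.adjoin_induction with
      | mem x hx =>
        rw [Set.mem_singleton_iff] at hx
        subst hx
        exact hj_mul
      | algebraMap r =>
        intro z hz
        rw [← Algebra.smul_def]
        exact Submodule.smul_mem _ r hz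
      | add x y _ _ hx hy =>
        intro z hz
        rw [add_mul]
        exact Submodule.add_mem _ (hx z hz) (hy z hz)
      | mul x y _ _ hx hy =>
        intro z hz
        rw [mul_assoc]
        exact hx _ (hy z hz)
    induction hy' using Submodule.span_induction with
    | mem μ hμ => exact Submodule.subset_span ⟨0, μ, hμ, by rw [pow_zero, one_mul]⟩
    | zero => exact Submodule.zero_mem _
    | add u v _ _ hu hv => exact Submodule.add_mem _ hu hv
    | smul b u _ hu => exact hB_mul b b.2 u hu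

/-- Bounded `ϖ`-power torsion of `N₁₂ / (N₁ + N₂)` on two standard charts. -/
theorem exists_bdd_of_two_chart [IsNoetherianRing A₀] (ϖ : A₀) (j : F) (hj0 : j ≠ 0)
    (N₁ N₂ N₁₂ : Submodule A₀ F) (T : Finset F)
    (h₁ : ∀ y ∈ N₁, y ∈ Submodule.span A₀ {z : F | ∃ (s : ℕ) (μ : F), μ ∈ T ∧ z = j ^ s * μ})
    (h₁' : ∀ μ ∈ T, ∀ s : ℕ, j ^ s * μ ∈ N₁)
    (h₂ : ∀ μ ∈ T, ∃ N : ℕ, ∀ t : ℕ, N ≤ t → j⁻¹ ^ t * μ ∈ N₂)
    (h₁₂ : ∀ y ∈ N₁₂, ∃ t : ℕ, j ^ t * y ∈ N₁) :
    ∃ c : ℕ, ∀ y ∈ N₁₂, ∀ a : ℕ, (∃ u ∈ N₁, ∃ v ∈ N₂, ϖ ^ a • y = u - v) →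
      ∃ u ∈ N₁, ∃ v ∈ N₂, ϖ ^ c • y = u - v := by
  obtain ⟨S, hS⟩ := Fermat.Agent.S18.H30.cech_fg_two_chart j j⁻¹ (mul_inv_cancel₀ hj0)
    N₁ N₂ N₁₂ T h₁ h₁' h₂ h₁₂
  obtain ⟨c, hc⟩ := Fermat.Agent.S18.H30.cech_bounded_torsion ϖ (N₁ ⊔ N₂) N₁₂ S hS
  refine ⟨c, fun y hy a ⟨u, hu, v, hv, huv⟩ => ?_⟩
  have h1 : ϖ ^ a • y ∈ N₁ ⊔ N₂ := by
    rw [huv, sub_eq_add_neg]
    exact Submodule.add_mem_sup hu (N₂.neg_mem hv)
  obtain ⟨u', hu', v', hv', huv'⟩ := Submodule.mem_sup.mp (hc a y hy h1)
  exact ⟨u', hu', -v', N₂.neg_mem hv', by rw [sub_neg_eq_add, huv']⟩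

end Fermat.Agent.S18.H86
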